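import Fermat.Agent.MU.F4.Coind.Quot
import Fermat.Agent.MU.F4.BR.Smooth

section MergeWrap_F4_Coind_Datum -- from F4/Coind/Datum.lean

/-!
# F4 / Coind / Datum : the complexes `KJ`, `KC` of `GlobalDatum` from the local data
(helper13, seat COIND)

For local data `loc q` (`q ∈ S`):
* `coindKJ loc = ∏_{q ∈ S} coInd_{D_q → G_ℚ} (loc q).K`;
* `coindF : μ_p[0] → KJ`, `x ↦ (q ↦ (g ↦ ε_q (g • x)))`;
* `coindKC = KJ / μ_p`, `coindG : KJ → KC`;
* `coindEv q : KJ|_{D_q} → (loc q).K`, the evaluation at `1` of the `q`-component;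
* `coind_exact`, `coind_ev_f`, `coind_shapiro1`, `coind_shapiro2`, `coind_smoothJ`, `coind_smoothC`
  in exactly the shapes of the fields of `GlobalDatum`;
* `CoindDatum`, `coindDatum`, `GlobalDatum.ofCoind` : the bundled form.
-/

set_option autoImplicit false

open CategoryTheory groupCohomology ExtCitation

namespace Fermat.Agent.F4

variable {p : ℕ} [Fact p.Prime] {S : Finset Nat.Primes}

section Construction

variable (loc : ∀ q : ↥S, LocalDatum p S q.1)

/-- `KJ = ∏_{q ∈ S} coInd (loc q).K`. -/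
noncomputable abbrev coindKJ : Cx (ZMod p) GQ :=
  coindPiCx (fun q : ↥S => primeLocalToGlobal q.1) (levelsS S) (fun q => (loc q).K)

theorem coind_smoothJ : (coindKJ loc).Smooth (levelsS S) :=
  coindPiCx_smooth _ _ _

/-- The function `g ↦ ε_q (g • x)` is a smooth coinduced function. -/
lemma coindF_mem (hsm : IsSmooth (levelsS S) (Fp1 p)) (q : ↥S) (x : Fp1 p) :
    (fun g : GQ => (loc q).ε.f0 ((Fp1 p).ρ g x)) ∈
      coIndSub (primeLocalToGlobal q.1) (levelsS S) (loc q).K.K0 := by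
  refine ⟨fun d g => ?_, ?_⟩
  · show (loc q).ε.f0 ((Fp1 p).ρ (primeLocalToGlobal q.1 d * g) x) = _
    rw [map_mul, Module.End.mul_apply]
    exact (loc q).ε.comm0 d _
  · obtain ⟨U, hU, h⟩ := hsm x
    refine ⟨U, hU, fun g s hs => ?_⟩
    show (loc q).ε.f0 ((Fp1 p).ρ (g * s) x) = (loc q).ε.f0 ((Fp1 p).ρ g x)
    rw [map_mul, Module.End.mul_apply, h s hs]

/-- `f : μ_p[0] → KJ`. -/
noncomputable def coindF (hsm : IsSmooth (levelsS S) (Fp1 p)) :
    CxHom (Cx.deg0 (Fp1 p)) (coindKJ loc) where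
  f0 :=
    { toFun := fun x q => ⟨_, coindF_mem loc hsm q x⟩
      map_add' := fun x y => funext fun q => Subtype.ext (funext fun g =>
        (congrArg (loc q).ε.f0 (map_add ((Fp1 p).ρ g) x y)).trans (map_add (loc q).ε.f0 _ _))
      map_smul' := fun c x => funext fun q => Subtype.ext (funext fun g =>
        (congrArg (loc q).ε.f0 (map_smul ((Fp1 p).ρ g) c x)).trans (map_smul (loc q).ε.f0 _ _)) }
  f1 := 0
  comm0 g x := funext fun q => Subtype.ext (funext fun h =>
    congrArg (loc q).ε.f0 (congrFun (congrArg DFunLike.coe (map_mul (Fp1 p).ρ h g)) x).symm)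
  comm1 _ _ := (map_zero _).symm
  commd x := by
    symm
    refine funext fun q => Subtype.ext (funext fun g => ?_)
    exact ((loc q).ε.commd ((Fp1 p).ρ g x)).symm.trans (map_zero (loc q).ε.f1)

/-- `KC = KJ / μ_p`. -/
noncomputable def coindKC (hsm : IsSmooth (levelsS S) (Fp1 p)) : Cx (ZMod p) GQ :=
  (coindKJ loc).quot0 (coindF loc hsm)

/-- `g : KJ → KC`. -/
noncomputable def coindG (hsm : IsSmooth (levelsS S) (Fp1 p)) :
    CxHom (coindKJ loc) (coindKC loc hsm) :=
  (coindKJ loc).quot0Map (coindF loc hsm)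

theorem coind_smoothC (hsm : IsSmooth (levelsS S) (Fp1 p)) :
    (coindKC loc hsm).Smooth (levelsS S) :=
  Cx.quot0_smooth _ _ _ (coind_smoothJ loc)

/-- `f` is injective as soon as one `ε_q` is. -/
theorem coindF_injective (hsm : IsSmooth (levelsS S) (Fp1 p))
    (hε : ∃ q : ↥S, Function.Injective (loc q).ε.f0) :
    Function.Injective (coindF loc hsm).f0 := by
  obtain ⟨q, hq⟩ := hε
  intro x y hxy
  apply hq
  have h1 := congrFun hxy q
  have h2 := congrFun (congrArg Subtype.val h1) 1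
  have h3 : (loc q).ε.f0 ((Fp1 p).ρ 1 x) = (loc q).ε.f0 ((Fp1 p).ρ 1 y) := h2
  have e : ∀ t : Fp1 p, (Fp1 p).ρ 1 t = t := fun t => by rw [map_one]; rfl
  exact ((congrArg (loc q).ε.f0 (e x)).symm.trans h3).trans (congrArg (loc q).ε.f0 (e y))

theorem coind_exact (hsm : IsSmooth (levelsS S) (Fp1 p))
    (hε : ∃ q : ↥S, Function.Injective (loc q).ε.f0) :
    CxShortExact (coindF loc hsm) (coindG loc hsm) :=
  Cx.quot0_exact _ _ (coindF_injective loc hsm hε)

/-- The evaluation maps `KJ|_{D_q} → (loc q).K`. -/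
noncomputable def coindEv (q : ↥S) :
    CxHom ((coindKJ loc).res (primeLocalToGlobal q.1)) (loc q).K :=
  evPi (fun q : ↥S => primeLocalToGlobal q.1) (levelsS S) (fun q => (loc q).K) q

theorem coind_ev_f (hsm : IsSmooth (levelsS S) (Fp1 p)) (q : ↥S) (x : Fp1 p) :
    (coindEv loc q).f0 ((coindF loc hsm).f0 x) = (loc q).ε.f0 x := by
  have e : ∀ t : Fp1 p, (Fp1 p).ρ 1 t = t := fun t => by rw [map_one]; rfl
  exact congrArg (loc q).ε.f0 (e x)

theorem coind_shapiro1 (N : Rep.{0} (ZMod p) GQ) (hN : IsSmooth (levelsS S) N)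
    (hfin : Module.Finite (ZMod p) N)
    (c : (∀ q : ↥S, ↥(ZZ1 (locLevelsS S q.1)
        (homCx (Rep.res (primeLocalToGlobal q.1) N) (loc q).K)))) :
    ∃ z : ↥(ZZ1 (levelsS S) (homCx N (coindKJ loc))), ∀ q : ↥S,
      (homCxPost (Rep.res (primeLocalToGlobal q.1) N) (coindEv loc q)).onT1
          (resHomT1 (primeLocalToGlobal q.1) N (coindKJ loc) z.1) - (c q).1
        ∈ BB1 (homCx (Rep.res (primeLocalToGlobal q.1) N) (loc q).K) := by
  obtain ⟨z, hz, h⟩ := shapiro1_pi (fun q : ↥S => primeLocalToGlobal q.1) (levelsS S)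
    (fun q => (loc q).K) N (fun q => (loc q).smooth) hN (fun q => (c q).1) (fun q => (c q).2)
  refine ⟨⟨z, hz⟩, fun q => ?_⟩
  have := h q
  show (homCxPost (Rep.res (primeLocalToGlobal q.1) N) (coindEv loc q)).onT1
          (resHomT1 (primeLocalToGlobal q.1) N (coindKJ loc) z) - (c q).1 ∈ _
  rw [show (homCxPost (Rep.res (primeLocalToGlobal q.1) N) (coindEv loc q)).onT1
          (resHomT1 (primeLocalToGlobal q.1) N (coindKJ loc) z) = (c q).1 from this, sub_self]
  exact Submodule.zero_mem _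

theorem coind_shapiro2 (N : Rep.{0} (ZMod p) GQ) (hN : IsSmooth (levelsS S) N)
    (hfin : Module.Finite (ZMod p) N)
    (z : ↥(ZZ2 (levelsS S) (homCx N (coindKJ loc))))
    (h : ∀ q : ↥S, (homCxPost (Rep.res (primeLocalToGlobal q.1) N) (coindEv loc q)).onT2
            (resHomT2 (primeLocalToGlobal q.1) N (coindKJ loc) z.1)
          ∈ BB2 (locLevelsS S q.1) (homCx (Rep.res (primeLocalToGlobal q.1) N) (loc q).K)) :
    (z : T2 (homCx N (coindKJ loc))) ∈ BB2 (levelsS S) (homCx N (coindKJ loc)) :=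
  shapiro2_pi (fun q : ↥S => primeLocalToGlobal q.1) (levelsS S)
    (fun q => (loc q).K) N (fun q => (loc q).smooth) hN z.1 z.2 h

end Construction

/-! ### Bundled form -/

/-- The part of `GlobalDatum` which is pure algebra: the complexes `KJ`, `KC`, the maps and
Shapiro's lemma (fields exactly as in `GlobalDatum`). -/
structure CoindDatum (p : ℕ) [Fact p.Prime] (S : Finset Nat.Primes)
    (loc : ∀ q : ↥S, LocalDatum p S q.1) where
  KJ : Cx (ZMod p) GQ
  KC : Cx (ZMod p) GQ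
  smoothJ : KJ.Smooth (levelsS S)
  smoothC : KC.Smooth (levelsS S)
  f : CxHom (Cx.deg0 (Fp1 p)) KJ
  g : CxHom KJ KC
  exact : CxShortExact f g
  ev : ∀ q : ↥S, CxHom (KJ.res (primeLocalToGlobal q.1)) (loc q).K
  ev_f : ∀ (q : ↥S) (x : Fp1 p), (ev q).f0 (f.f0 x) = (loc q).ε.f0 x
  shapiro1 : ∀ (N : Rep.{0} (ZMod p) GQ), IsSmooth (levelsS S) N → Module.Finite (ZMod p) N →
    ∀ c : (∀ q : ↥S, ↥(ZZ1 (locLevelsS S q.1)
        (homCx (Rep.res (primeLocalToGlobal q.1) N) (loc q).K))),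
      ∃ z : ↥(ZZ1 (levelsS S) (homCx N KJ)), ∀ q : ↥S,
        (homCxPost (Rep.res (primeLocalToGlobal q.1) N) (ev q)).onT1
            (resHomT1 (primeLocalToGlobal q.1) N KJ z.1) - (c q).1
          ∈ BB1 (homCx (Rep.res (primeLocalToGlobal q.1) N) (loc q).K)
  shapiro2 : ∀ (N : Rep.{0} (ZMod p) GQ), IsSmooth (levelsS S) N → Module.Finite (ZMod p) N →
    ∀ z : ↥(ZZ2 (levelsS S) (homCx N KJ)),
      (∀ q : ↥S, (homCxPost (Rep.res (primeLocalToGlobal q.1) N) (ev q)).onT2
            (resHomT2 (primeLocalToGlobal q.1) N KJ z.1)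
          ∈ BB2 (locLevelsS S q.1) (homCx (Rep.res (primeLocalToGlobal q.1) N) (loc q).K)) →
        (z : T2 (homCx N KJ)) ∈ BB2 (levelsS S) (homCx N KJ)

/-- **COIND**: the algebraic part of the global datum, from the local data. -/
noncomputable def coindDatum (hpS : pPrime p ∈ S) (loc : ∀ q : ↥S, LocalDatum p S q.1) :
    CoindDatum p S loc where
  KJ := coindKJ loc
  KC := coindKC loc (isSmooth_Fp1 S hpS)
  smoothJ := coind_smoothJ loc
  smoothC := coind_smoothC loc _
  f := coindF loc (isSmooth_Fp1 S hpS)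
  g := coindG loc _
  exact := coind_exact loc _ ⟨⟨pPrime p, hpS⟩, (loc ⟨pPrime p, hpS⟩).ε_inj⟩
  ev := coindEv loc
  ev_f := coind_ev_f loc _
  shapiro1 := coind_shapiro1 loc
  shapiro2 := coind_shapiro2 loc

/-- The global datum from its algebraic part and the class field theory of `KC`. -/
noncomputable def GlobalDatum.ofCoind {loc : ∀ q : ↥S, LocalDatum p S q.1}
    (C : CoindDatum p S loc)
    (inv : HH2 (levelsS S) C.KC →ₗ[ZMod p] ZMod p)
    (recip : ∀ z : ↥(ZZ2 (levelsS S) C.KJ),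
      inv (HH2π _ _ (C.g.mapZZ2 _ z)) =
        ∑ q : ↥S, (loc q).inv (HH2π _ _ ((C.ev q).mapZZ2 _
          ⟨resT2 (primeLocalToGlobal q.1) C.KJ z.1, resT2_mem_ZZ2 _ _ C.KJ z.2⟩)))
    (a2inj : ∀ U : Subgroup GQ, (levelsS S).IsOpen U → ¬ p ∣ U.index →
      A2Inj (levelsS S) C.KC (permRep (ZMod p) U) inv)
    (a1surj : ∀ (U : Subgroup GQ) (hU : (levelsS S).IsOpen U), ¬ p ∣ U.index →
      A1Surj (levelsS S) C.KC (permRep (ZMod p) U) inv (permRep_smooth _ hU)
        (permRep_finite _ hU))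
    (a1inj : ∀ (V : Subgroup GQ) (hV : V ∈ (levelsS S).sets),
      A1Inj (levelsS S) C.KC (permRep (ZMod p) V) inv
        (permRep_smooth _ ((levelsS S).isOpen_of_mem hV))
        (permRep_finite _ ((levelsS S).isOpen_of_mem hV)))
    (finH1 : ∀ U : Subgroup GQ, (levelsS S).IsOpen U → ¬ p ∣ U.index →
      Module.Finite (ZMod p) (H1sm (levelsS S) (permRep (ZMod p) U))) :
    GlobalDatum p S where
  loc := loc
  KJ := C.KJ
  KC := C.KC
  smoothJ := C.smoothJ
  smoothC := C.smoothC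
  f := C.f
  g := C.g
  exact := C.exact
  ev := C.ev
  ev_f := C.ev_f
  shapiro1 := C.shapiro1
  shapiro2 := C.shapiro2
  inv := inv
  recip := recip
  a2inj := a2inj
  a1surj := a1surj
  a1inj := a1inj
  finH1 := finH1

end Fermat.Agent.F4
end MergeWrap_F4_Coind_Datum
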